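/-
RIBET / W-EIS leaf UNIT-EIS (helper67), part 1: formal power-series core.

For a domain `K` with a primitive `ℓ`-th root of unity `ζ` (`ℓ` prime) and the Euler product
`E = ∏ (1 - Xⁿ)`:
  `E(X^{ℓ²}) · ∏_{b<ℓ} E(ζ^b X) = E(X^ℓ)^{ℓ+1}`,
and the same for `E(X^a)` with `ℓ ∤ a`.  The proof is by truncation modulo `X^M`.
-/
import Mathlib
import Fermat.Prelude.Def_ModularCurve_X0
import Fermat.Agent.Lib.Haupt.Formal

set_option autoImplicit false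

noncomputable section

namespace Fermat.Agent.Ribet.H67

open PowerSeries

variable {K : Type*} [CommRing K]

/-- Reduction modulo `X^M`. -/
abbrev qM (K : Type*) [CommRing K] (M : ℕ) :
    K⟦X⟧ →+* K⟦X⟧ ⧸ Ideal.span {(X : K⟦X⟧) ^ M} :=
  Ideal.Quotient.mk _

theorem qM_eq_iff {M : ℕ} {f g : K⟦X⟧} :
    qM K M f = qM K M g ↔ ∀ m < M, coeff m f = coeff m g := by
  rw [Ideal.Quotient.eq, Ideal.mem_span_singleton, PowerSeries.X_pow_dvd_iff]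
  simp only [map_sub, sub_eq_zero]

theorem qM_eq_iff_dvd {M : ℕ} {f g : K⟦X⟧} :
    qM K M f = qM K M g ↔ (X : K⟦X⟧) ^ M ∣ f - g := by
  rw [Ideal.Quotient.eq, Ideal.mem_span_singleton]

/-- A ring endomorphism with `X^M' ∣ φ (X^M)` carries congruences mod `X^M` to congruences
mod `X^M'`. -/
theorem qM_map_congr (φ : K⟦X⟧ →+* K⟦X⟧) {M M' : ℕ} (hφ : (X : K⟦X⟧) ^ M' ∣ φ (X ^ M))
    {f g : K⟦X⟧} (h : qM K M f = qM K M g) : qM K M' (φ f) = qM K M' (φ g) := by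
  rw [qM_eq_iff_dvd] at h ⊢
  obtain ⟨c, hc⟩ := h
  rw [← map_sub, hc, map_mul]
  exact Dvd.dvd.mul_right hφ _

theorem qM_expand_congr (ℓ : ℕ) (hℓ : ℓ ≠ 0) {B : ℕ} {f g : K⟦X⟧}
    (h : qM K B f = qM K B g) :
    qM K (ℓ * B) (expand ℓ hℓ f) = qM K (ℓ * B) (expand ℓ hℓ g) := by
  refine qM_map_congr ((expand ℓ hℓ : K⟦X⟧ →ₐ[K] K⟦X⟧) : K⟦X⟧ →+* K⟦X⟧) ?_ h
  rw [RingHom.coe_coe, map_pow, expand_X, ← pow_mul]

theorem qM_expand_congr' (ℓ : ℕ) (hℓ : ℓ ≠ 0) {M : ℕ} {f g : K⟦X⟧}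
    (h : qM K M f = qM K M g) :
    qM K M (expand ℓ hℓ f) = qM K M (expand ℓ hℓ g) := by
  refine qM_map_congr ((expand ℓ hℓ : K⟦X⟧ →ₐ[K] K⟦X⟧) : K⟦X⟧ →+* K⟦X⟧) ?_ h
  rw [RingHom.coe_coe, map_pow, expand_X, ← pow_mul]
  exact pow_dvd_pow _ (Nat.le_mul_of_pos_left _ (Nat.pos_of_ne_zero hℓ))

theorem qM_rescale_congr (a : K) {M : ℕ} {f g : K⟦X⟧}
    (h : qM K M f = qM K M g) :
    qM K M (rescale a f) = qM K M (rescale a g) := by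
  refine qM_map_congr (rescale a) ?_ h
  rw [map_pow, rescale_X, mul_pow]
  exact Dvd.intro_left _ rfl

theorem eq_of_forall_qM {ℓ : ℕ} (hℓ : 0 < ℓ) {f g : K⟦X⟧}
    (h : ∀ B : ℕ, qM K (ℓ * B) f = qM K (ℓ * B) g) : f = g := by
  ext m
  have := qM_eq_iff.1 (h (m + 1)) m (by nlinarith)
  exact this

/-- The Euler product `∏ (1 - Xⁿ)` over `K`. -/
def etaK (K : Type*) [CommRing K] : K⟦X⟧ :=
  PowerSeries.map (Int.castRingHom K) ModularCurve.etaProd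

theorem qM_etaK (M : ℕ) :
    qM K M (etaK K) = qM K M (∏ n ∈ Finset.range M, (1 - X ^ (n + 1))) := by
  rw [qM_eq_iff]
  intro m hm
  rw [etaK, coeff_map, Lib.Haupt.coeff_etaProd hm, ← coeff_map, map_prod]
  simp

/-- The twisted norm `∏_{b<ℓ} f(ζ^b X)`. -/
def twN (ℓ : ℕ) (ζ : K) (f : K⟦X⟧) : K⟦X⟧ := ∏ b ∈ Finset.range ℓ, rescale (ζ ^ b) f

theorem twN_mul (ℓ : ℕ) (ζ : K) (f g : K⟦X⟧) : twN ℓ ζ (f * g) = twN ℓ ζ f * twN ℓ ζ g := by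
  simp only [twN, map_mul, Finset.prod_mul_distrib]

theorem twN_one (ℓ : ℕ) (ζ : K) : twN ℓ ζ (1 : K⟦X⟧) = 1 := by
  simp only [twN, map_one, Finset.prod_const_one]

theorem twN_prod {ι : Type*} (ℓ : ℕ) (ζ : K) (s : Finset ι) (F : ι → K⟦X⟧) :
    twN ℓ ζ (∏ i ∈ s, F i) = ∏ i ∈ s, twN ℓ ζ (F i) := by
  simp only [twN, map_prod]
  exact Finset.prod_comm

theorem qM_twN_congr (ℓ : ℕ) (ζ : K) {M : ℕ} {f g : K⟦X⟧}
    (h : qM K M f = qM K M g) : qM K M (twN ℓ ζ f) = qM K M (twN ℓ ζ g) := by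
  simp only [twN, map_prod]
  exact Finset.prod_congr rfl fun b _ => qM_rescale_congr _ h

/-! ### The three computations -/

/-- `∏_{b<ℓ} (1 - (ζ^b X)^n) = 1 - X^{ℓ n}` for `n` prime to `ℓ`. -/
theorem twN_one_sub_X_pow [IsDomain K] {ℓ : ℕ} (hℓ : 0 < ℓ) {ζ : K} (hζ : IsPrimitiveRoot ζ ℓ)
    {n : ℕ} (hn : n.Coprime ℓ) :
    twN ℓ ζ (1 - X ^ n : K⟦X⟧) = 1 - X ^ (ℓ * n) := by
  classical
  have hω : IsPrimitiveRoot (C (ζ ^ n) : K⟦X⟧) ℓ :=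
    (hζ.pow_of_coprime n hn).map_of_injective (f := (C : K →+* K⟦X⟧)) C_injective
  have h1 := IsPrimitiveRoot.pow_sub_pow_eq_prod_sub_mul (1 : K⟦X⟧) (X ^ n) hℓ hω
  rw [one_pow, ← pow_mul, mul_comm n ℓ] at h1
  rw [h1]
  have himg : (Finset.range ℓ).image (fun b => (C (ζ ^ n) : K⟦X⟧) ^ b) =
      Polynomial.nthRootsFinset ℓ (1 : K⟦X⟧) := by
    apply Finset.eq_of_subset_of_card_le
    · intro u hu
      obtain ⟨b, -, rfl⟩ := Finset.mem_image.mp hu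
      rw [Polynomial.mem_nthRootsFinset hℓ, ← pow_mul, mul_comm, pow_mul, hω.pow_eq_one, one_pow]
    · rw [hω.card_nthRootsFinset, Finset.card_image_of_injOn hω.injOn_pow, Finset.card_range]
  rw [← himg, Finset.prod_image (fun a ha b hb hab => hω.injOn_pow ha hb hab)]
  unfold twN
  refine Finset.prod_congr rfl fun b _ => ?_
  rw [map_sub, map_one, map_pow, rescale_X, mul_pow, ← map_pow, ← map_pow, ← pow_mul, ← pow_mul,
    mul_comm b n]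

/-- `f(ηX) = f(X)` for `f ∈ K⟦X^ℓ⟧` and `η^ℓ = 1`. -/
theorem rescale_expand_of_pow_eq_one {ℓ : ℕ} (hℓ : ℓ ≠ 0) {η : K} (hη : η ^ ℓ = 1) (g : K⟦X⟧) :
    rescale η (expand ℓ hℓ g) = expand ℓ hℓ g := by
  ext m
  rw [coeff_rescale, coeff_expand]
  split_ifs with h
  · obtain ⟨k, rfl⟩ := h
    rw [pow_mul, hη, one_pow, one_mul]
  · rw [mul_zero]

theorem twN_expand_self {ℓ : ℕ} (hℓ : ℓ ≠ 0) {ζ : K} (hζ : ζ ^ ℓ = 1) (g : K⟦X⟧) :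
    twN ℓ ζ (expand ℓ hℓ g) = (expand ℓ hℓ g) ^ ℓ := by
  unfold twN
  rw [Finset.prod_congr rfl fun b _ => rescale_expand_of_pow_eq_one hℓ
    (show (ζ ^ b) ^ ℓ = 1 by rw [← pow_mul, mul_comm, pow_mul, hζ, one_pow]) g]
  rw [Finset.prod_const, Finset.card_range]

/-- Splitting the truncated Euler product according to `ℓ ∣ n`. -/
theorem prod_range_split (ℓ : ℕ) (hℓ : ℓ ≠ 0) (B : ℕ) :
    (∏ n ∈ Finset.range (ℓ * B), (1 - X ^ (n + 1) : K⟦X⟧)) =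
      (∏ n ∈ (Finset.range (ℓ * B)).filter (fun n => ¬ ℓ ∣ n + 1), (1 - X ^ (n + 1) : K⟦X⟧)) *
        expand ℓ hℓ (∏ m ∈ Finset.range B, (1 - X ^ (m + 1) : K⟦X⟧)) := by
  classical
  rw [← Finset.prod_filter_mul_prod_filter_not (Finset.range (ℓ * B)) (fun n => ℓ ∣ n + 1),
    mul_comm]
  congr 1
  rw [map_prod]
  symm
  refine Finset.prod_bij (fun m _ => ℓ * (m + 1) - 1) ?_ ?_ ?_ ?_
  · intro m hm
    rw [Finset.mem_range] at hm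
    have h1 : 1 ≤ ℓ * (m + 1) := Nat.mul_pos (Nat.pos_of_ne_zero hℓ) (Nat.succ_pos m)
    have h2 : ℓ * (m + 1) ≤ ℓ * B := Nat.mul_le_mul_left ℓ hm
    rw [Finset.mem_filter, Finset.mem_range, Nat.sub_add_cancel h1]
    exact ⟨by omega, dvd_mul_right _ _⟩
  · intro m hm m' hm' h
    have h1 : 1 ≤ ℓ * (m + 1) := Nat.mul_pos (Nat.pos_of_ne_zero hℓ) (Nat.succ_pos m)
    have h1' : 1 ≤ ℓ * (m' + 1) := Nat.mul_pos (Nat.pos_of_ne_zero hℓ) (Nat.succ_pos m')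
    have h' : ℓ * (m + 1) - 1 = ℓ * (m' + 1) - 1 := h
    have h3 : ℓ * (m + 1) = ℓ * (m' + 1) := by omega
    have := Nat.eq_of_mul_eq_mul_left (Nat.pos_of_ne_zero hℓ) h3
    omega
  · intro n hn
    rw [Finset.mem_filter, Finset.mem_range] at hn
    obtain ⟨hn1, k, hk⟩ := hn
    have hk0 : k ≠ 0 := by
      rintro rfl
      simp at hk
    obtain ⟨m, rfl⟩ := Nat.exists_eq_succ_of_ne_zero hk0
    refine ⟨m, ?_, ?_⟩
    · rw [Finset.mem_range]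
      have : ℓ * (m + 1) < ℓ * B + 1 := by
        rw [Nat.succ_eq_add_one] at hk
        omega
      by_contra hcon
      have h4 : ℓ * B ≤ ℓ * m := Nat.mul_le_mul_left ℓ (not_lt.mp hcon)
      have h5 : 0 < ℓ := Nat.pos_of_ne_zero hℓ
      rw [Nat.mul_succ] at this
      omega
    · show ℓ * (m + 1) - 1 = n
      rw [Nat.succ_eq_add_one] at hk
      omega
  · intro m hm
    have h1 : 1 ≤ ℓ * (m + 1) := Nat.mul_pos (Nat.pos_of_ne_zero hℓ) (Nat.succ_pos m)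
    rw [map_sub, map_one, map_pow, expand_X, ← pow_mul, Nat.sub_add_cancel h1]

/-! ### The norm identity for the Euler product -/

/-- `E(X^{ℓ²}) · ∏_{b<ℓ} E(ζ^b X) = E(X^ℓ)^{ℓ+1}`. -/
theorem etaK_norm_identity [IsDomain K] {ℓ : ℕ} (hℓ : ℓ.Prime) {ζ : K}
    (hζ : IsPrimitiveRoot ζ ℓ) :
    expand ℓ hℓ.ne_zero (expand ℓ hℓ.ne_zero (etaK K)) * twN ℓ ζ (etaK K) =
      (expand ℓ hℓ.ne_zero (etaK K)) ^ (ℓ + 1) := by
  classical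
  refine eq_of_forall_qM hℓ.pos fun B => ?_
  set E := etaK K with hE
  set A : K⟦X⟧ :=
    ∏ n ∈ (Finset.range (ℓ * B)).filter (fun n => ¬ ℓ ∣ n + 1), (1 - X ^ (n + 1) : K⟦X⟧) with hA
  -- `E ≡ A · E(X^ℓ)`
  have h2 : qM K (ℓ * B) E = qM K (ℓ * B) (A * expand ℓ hℓ.ne_zero E) := by
    rw [qM_etaK (ℓ * B), prod_range_split ℓ hℓ.ne_zero B, map_mul, map_mul,
      qM_expand_congr ℓ hℓ.ne_zero (qM_etaK (K := K) B)]
  -- `N(A) = A(X^ℓ)`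
  have h3 : twN ℓ ζ A = expand ℓ hℓ.ne_zero A := by
    rw [hA, twN_prod, map_prod]
    refine Finset.prod_congr rfl fun n hn => ?_
    rw [Finset.mem_filter] at hn
    rw [twN_one_sub_X_pow hℓ.pos hζ ((Nat.Prime.coprime_iff_not_dvd hℓ).2 hn.2).symm,
      map_sub, map_one, map_pow, expand_X, ← pow_mul]
  -- `N(E(X^ℓ)) = E(X^ℓ)^ℓ`
  have h4 : twN ℓ ζ (expand ℓ hℓ.ne_zero E) = (expand ℓ hℓ.ne_zero E) ^ ℓ :=
    twN_expand_self hℓ.ne_zero hζ.pow_eq_one E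
  have h5 : qM K (ℓ * B) (twN ℓ ζ E) =
      qM K (ℓ * B) (expand ℓ hℓ.ne_zero A * (expand ℓ hℓ.ne_zero E) ^ ℓ) := by
    rw [qM_twN_congr ℓ ζ h2, twN_mul, h3, h4]
  have h6 : qM K (ℓ * B) (expand ℓ hℓ.ne_zero E) =
      qM K (ℓ * B) (expand ℓ hℓ.ne_zero A * expand ℓ hℓ.ne_zero (expand ℓ hℓ.ne_zero E)) := by
    rw [qM_expand_congr' ℓ hℓ.ne_zero h2, map_mul]
  rw [map_mul, h5, map_mul, ← mul_assoc, mul_comm (qM K (ℓ * B) _) (qM K (ℓ * B) _),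
    ← map_mul (qM K (ℓ * B)) (expand ℓ hℓ.ne_zero A), ← h6, pow_succ', map_mul, map_pow]

/-! ### Transport along `X ↦ X^a` -/

theorem expand_congr_exp {p q : ℕ} (h : p = q) (hp : p ≠ 0) (hq : q ≠ 0) (f : K⟦X⟧) :
    expand p hp f = expand q hq f := by
  subst h
  rfl

theorem expand_comm' (a ℓ : ℕ) (ha : a ≠ 0) (hℓ : ℓ ≠ 0) (f : K⟦X⟧) :
    expand a ha (expand ℓ hℓ f) = expand ℓ hℓ (expand a ha f) := by
  rw [← expand_mul, ← expand_mul]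
  exact expand_congr_exp (mul_comm a ℓ) _ _ f

theorem rescale_expand (a : ℕ) (ha : a ≠ 0) (c : K) (f : K⟦X⟧) :
    rescale c (expand a ha f) = expand a ha (rescale (c ^ a) f) := by
  ext m
  rw [coeff_rescale, coeff_expand, coeff_expand]
  split_ifs with h
  · obtain ⟨k, rfl⟩ := h
    rw [Nat.mul_div_cancel_left _ (Nat.pos_of_ne_zero ha), coeff_rescale, pow_mul]
  · rw [mul_zero]

theorem twN_expand (a : ℕ) (ha : a ≠ 0) (ℓ : ℕ) (ζ : K) (f : K⟦X⟧) :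
    twN ℓ ζ (expand a ha f) = expand a ha (twN ℓ (ζ ^ a) f) := by
  unfold twN
  rw [map_prod]
  refine Finset.prod_congr rfl fun b _ => ?_
  rw [rescale_expand, ← pow_mul, ← pow_mul, mul_comm]

/-- `G(X^{ℓ²}) · ∏_{b<ℓ} G(ζ^b X) = G(X^ℓ)^{ℓ+1}` for `G = E(X^a)`, `ℓ ∤ a`. -/
theorem etaK_expand_norm_identity [IsDomain K] {ℓ : ℕ} (hℓ : ℓ.Prime) {ζ : K}
    (hζ : IsPrimitiveRoot ζ ℓ) (a : ℕ) (ha : a ≠ 0) (hla : ¬ ℓ ∣ a) :
    expand ℓ hℓ.ne_zero (expand ℓ hℓ.ne_zero (expand a ha (etaK K))) *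
        twN ℓ ζ (expand a ha (etaK K)) =
      (expand ℓ hℓ.ne_zero (expand a ha (etaK K))) ^ (ℓ + 1) := by
  have hζa : IsPrimitiveRoot (ζ ^ a) ℓ :=
    hζ.pow_of_coprime a ((Nat.Prime.coprime_iff_not_dvd hℓ).2 hla).symm
  rw [twN_expand, ← expand_comm' a ℓ ha hℓ.ne_zero (etaK K),
    ← expand_comm' a ℓ ha hℓ.ne_zero (expand ℓ hℓ.ne_zero (etaK K)), ← map_mul,
    etaK_norm_identity hℓ hζa, map_pow]

end Fermat.Agent.Ribet.H67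

end
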