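/-
RIBET / W-EIS leaf UNIT-EIS (helper67), part 2: transfer to Laurent series.

`kronNorm ℓ u_p = C c · u_p^(ℓ+1)` with `c ≠ 0`, for the modular unit `u_p = Δ(q^p)/Δ(q)`,
over any field with a primitive `ℓ`-th root of unity (`ℓ` prime, `ℓ ∤ p`).
-/
import Fermat.Agent.Ribet.H67.UnitEisCore
import Fermat.Agent.S37.H400.KronBridge
import Fermat.Agent.S28.H88.Theta

set_option autoImplicit false

noncomputable section

namespace Fermat.Agent.Ribet.H67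

open PowerSeries ModularCurve
open Fermat.Agent.S37 Fermat.Agent.S37.H400

section Transfer

variable {K : Type*} [CommRing K]

theorem ofPS_expand (k : ℕ) [NeZero k] (hk : k ≠ 0) (f : K⟦X⟧) :
    HahnSeries.ofPowerSeries ℤ K (expand k hk f) =
      qExpand K k (HahnSeries.ofPowerSeries ℤ K f) := by
  have hk0 : (0 : ℤ) < k := by exact_mod_cast Nat.pos_of_ne_zero hk
  ext n
  by_cases hn : (k : ℤ) ∣ n
  · obtain ⟨m, rfl⟩ := hn
    rw [qExpand_coeff_mul]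
    rcases le_or_gt 0 m with hm | hm
    · lift m to ℕ using hm
      rw [HahnSeries.ofPowerSeries_apply_coeff, show (k : ℤ) * (m : ℤ) = ((k * m : ℕ) : ℤ) by
        push_cast; ring, HahnSeries.ofPowerSeries_apply_coeff, PowerSeries.coeff_expand_mul]
    · rw [ofPowerSeries_coeff_of_neg _ hm, ofPowerSeries_coeff_of_neg _ (by nlinarith)]
  · rw [qExpand_coeff_of_not_dvd k _ hn]
    rcases le_or_gt 0 n with hn0 | hn0
    · lift n to ℕ using hn0
      rw [HahnSeries.ofPowerSeries_apply_coeff, PowerSeries.coeff_expand_of_not_dvd]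
      intro h
      exact hn (by exact_mod_cast h)
    · rw [ofPowerSeries_coeff_of_neg _ hn0]

theorem ofPS_rescale {ℓ : ℕ} [NeZero ℓ] {η : K} (hη : η ^ ℓ = 1) (f : K⟦X⟧) :
    HahnSeries.ofPowerSeries ℤ K (rescale η f) =
      H340.tw ℓ η (HahnSeries.ofPowerSeries ℤ K f) := by
  ext n
  rw [H340.tw_coeff]
  rcases le_or_gt 0 n with hn | hn
  · lift n to ℕ using hn
    rw [HahnSeries.ofPowerSeries_apply_coeff, HahnSeries.ofPowerSeries_apply_coeff,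
      coeff_rescale, H340.zpw_natCast hη]
  · rw [ofPowerSeries_coeff_of_neg _ hn, ofPowerSeries_coeff_of_neg _ hn, mul_zero]

theorem ofPS_twN {ℓ : ℕ} [NeZero ℓ] {ζ : K} (hζ : ζ ^ ℓ = 1) (f : K⟦X⟧) :
    HahnSeries.ofPowerSeries ℤ K (twN ℓ ζ f) =
      ∏ b : Fin ℓ, H340.tw ℓ (ζ ^ (b : ℕ)) (HahnSeries.ofPowerSeries ℤ K f) := by
  rw [twN, map_prod,
    Fin.prod_univ_eq_prod_range
      (fun b => H340.tw ℓ (ζ ^ b) (HahnSeries.ofPowerSeries ℤ K f)) ℓ]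
  exact Finset.prod_congr rfl fun b _ => ofPS_rescale (H340.pow_pow_eq_one hζ b) f

/-- A power series satisfying the norm identity gives a fixed point of `f ↦ kronNorm ℓ f / f^{ℓ+1}`. -/
theorem kronNorm_ofPS_of_identity [IsDomain K] {ℓ : ℕ} [NeZero ℓ] {ζ : K}
    (hζ : IsPrimitiveRoot ζ ℓ) (G : K⟦X⟧)
    (h : expand ℓ (NeZero.ne ℓ) (expand ℓ (NeZero.ne ℓ) G) * twN ℓ ζ G =
      (expand ℓ (NeZero.ne ℓ) G) ^ (ℓ + 1)) :
    kronNorm ℓ (HahnSeries.ofPowerSeries ℤ K G) = (HahnSeries.ofPowerSeries ℤ K G) ^ (ℓ + 1) := by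
  apply qExpand_injective (R := K) (N := ℓ)
  rw [qExpand_kronNorm_eq_prod ℓ hζ, map_pow, ← ofPS_expand ℓ (NeZero.ne ℓ),
    ← ofPS_expand ℓ (NeZero.ne ℓ), ← ofPS_twN hζ.pow_eq_one, ← map_mul, h, map_pow]

/-- The Kronecker norm of `q`. -/
theorem kronNorm_qq [IsDomain K] {ℓ : ℕ} [NeZero ℓ] {ζ : K} (hζ : IsPrimitiveRoot ζ ℓ) :
    kronNorm ℓ (H340.qq : LaurentSeries K) =
      HahnSeries.C (∏ b : Fin ℓ, ζ ^ (b : ℕ)) * (H340.qq : LaurentSeries K) ^ (ℓ + 1) := by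
  apply qExpand_injective (R := K) (N := ℓ)
  have hq : qExpand K ℓ (H340.qq : LaurentSeries K) = (H340.qq : LaurentSeries K) ^ ℓ := by
    rw [H340.qq_pow, H340.qq, qExpand_single, mul_one]
  have htw : ∀ b : Fin ℓ, H340.tw ℓ (ζ ^ (b : ℕ)) (H340.qq : LaurentSeries K) =
      HahnSeries.C (ζ ^ (b : ℕ)) * (H340.qq : LaurentSeries K) := by
    intro b
    have := H340.tw_qq_pow (ℓ := ℓ) (ζ := ζ ^ (b : ℕ))
      (H340.pow_pow_eq_one hζ.pow_eq_one b) 1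
    rwa [pow_one, pow_one] at this
  rw [qExpand_kronNorm_eq_prod ℓ hζ, map_mul, qExpand_C, map_pow, hq, map_pow, hq,
    Finset.prod_congr rfl fun b _ => htw b, Finset.prod_mul_distrib, Finset.prod_const,
    Finset.card_univ, Fintype.card_fin, map_prod]
  ring

end Transfer

section Assembly

variable {L : Type*} [Field L]

/-- `f` is an eigen-unit for the Kronecker norm: `kronNorm ℓ f = c · f^{ℓ+1}`, `c ≠ 0`. -/
def IsNormEig (ℓ : ℕ) [NeZero ℓ] (f : LaurentSeries L) : Prop :=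
  ∃ c : L, c ≠ 0 ∧ kronNorm ℓ f = HahnSeries.C c * f ^ (ℓ + 1)

theorem IsNormEig.mul {ℓ : ℕ} [NeZero ℓ] {f g : LaurentSeries L} (hf : IsNormEig ℓ f)
    (hg : IsNormEig ℓ g) : IsNormEig ℓ (f * g) := by
  obtain ⟨c, hc, hcf⟩ := hf
  obtain ⟨d, hd, hdg⟩ := hg
  refine ⟨c * d, mul_ne_zero hc hd, ?_⟩
  rw [kronNorm_mul, hcf, hdg, map_mul, mul_pow]
  ring

theorem IsNormEig.one {ℓ : ℕ} [NeZero ℓ] : IsNormEig ℓ (1 : LaurentSeries L) :=
  ⟨1, one_ne_zero, by rw [kronNorm_one, map_one, one_pow, one_mul]⟩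

theorem IsNormEig.pow {ℓ : ℕ} [NeZero ℓ] {f : LaurentSeries L} (hf : IsNormEig ℓ f) (n : ℕ) :
    IsNormEig ℓ (f ^ n) := by
  induction n with
  | zero => rw [pow_zero]; exact IsNormEig.one
  | succ n ih => rw [pow_succ]; exact ih.mul hf

theorem IsNormEig.of_mul_eq_one {ℓ : ℕ} [NeZero ℓ] {f g : LaurentSeries L} (hf : IsNormEig ℓ f)
    (h : f * g = 1) : IsNormEig ℓ g := by
  obtain ⟨c, hc, hcf⟩ := hf
  refine ⟨c⁻¹, inv_ne_zero hc, ?_⟩
  have h1 : kronNorm ℓ f * kronNorm ℓ g = 1 := by rw [← kronNorm_mul, h, kronNorm_one]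
  have hcc : (HahnSeries.C c⁻¹ : LaurentSeries L) * HahnSeries.C c = 1 := by
    rw [← map_mul, inv_mul_cancel₀ hc, map_one]
  have hfg : g ^ (ℓ + 1) * f ^ (ℓ + 1) = 1 := by rw [← mul_pow, mul_comm, h, one_pow]
  calc kronNorm ℓ g = (HahnSeries.C c⁻¹ * g ^ (ℓ + 1)) * (HahnSeries.C c * f ^ (ℓ + 1)) *
        kronNorm ℓ g := by
        rw [mul_mul_mul_comm, hcc, hfg, one_mul, one_mul]
    _ = (HahnSeries.C c⁻¹ * g ^ (ℓ + 1)) * (kronNorm ℓ f * kronNorm ℓ g) := by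
        rw [hcf, mul_assoc]
    _ = HahnSeries.C c⁻¹ * g ^ (ℓ + 1) := by rw [h1, mul_one]

theorem deltaL_eq : S28.deltaL L =
    (H340.qq : LaurentSeries L) * (HahnSeries.ofPowerSeries ℤ L (etaK L)) ^ 24 := by
  rw [S28.deltaL, H340.qq, etaK, dedekindEtaUnit, map_pow, map_pow]

theorem qExpand_deltaL_eq (p : ℕ) [NeZero p] : qExpand L p (S28.deltaL L) =
    (H340.qq : LaurentSeries L) ^ p *
      (HahnSeries.ofPowerSeries ℤ L (expand p (NeZero.ne p) (etaK L))) ^ 24 := by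
  rw [deltaL_eq, map_mul, map_pow, ← ofPS_expand p (NeZero.ne p), H340.qq_pow, H340.qq,
    qExpand_single, mul_one]

/-- **UNIT-EIS**, general form. -/
theorem kronNorm_unitL_eq (p : ℕ) [NeZero p] (ℓ : ℕ) [NeZero ℓ] (hℓ : ℓ.Prime) (hℓp : ¬ ℓ ∣ p)
    {ζ : L} (hζ : IsPrimitiveRoot ζ ℓ) :
    ∃ c : L, c ≠ 0 ∧
      kronNorm ℓ (S28.unitL L p) = HahnSeries.C c * S28.unitL L p ^ (ℓ + 1) := by
  have hε : (∏ b : Fin ℓ, ζ ^ (b : ℕ)) ≠ 0 :=
    Finset.prod_ne_zero_iff.2 fun b _ => pow_ne_zero _ (hζ.ne_zero hℓ.ne_zero)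
  have hq : IsNormEig ℓ (H340.qq : LaurentSeries L) := ⟨_, hε, kronNorm_qq hζ⟩
  have hE : IsNormEig ℓ (HahnSeries.ofPowerSeries ℤ L (etaK L)) :=
    ⟨1, one_ne_zero, by
      rw [map_one, one_mul]
      exact kronNorm_ofPS_of_identity hζ _ (etaK_norm_identity hℓ hζ)⟩
  have hEp : IsNormEig ℓ (HahnSeries.ofPowerSeries ℤ L (expand p (NeZero.ne p) (etaK L))) :=
    ⟨1, one_ne_zero, by
      rw [map_one, one_mul]
      exact kronNorm_ofPS_of_identity hζ _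
        (etaK_expand_norm_identity hℓ hζ p (NeZero.ne p) hℓp)⟩
  have hΔ : IsNormEig ℓ (S28.deltaL L) := by
    rw [deltaL_eq]
    exact hq.mul (hE.pow 24)
  have hΔp : IsNormEig ℓ (qExpand L p (S28.deltaL L)) := by
    rw [qExpand_deltaL_eq]
    exact (hq.pow p).mul (hEp.pow 24)
  have hΔinv : IsNormEig ℓ (S28.deltaInvL L) :=
    hΔ.of_mul_eq_one (S28.h88_deltaL_mul_deltaInvL L)
  exact hΔp.mul hΔinv

end Assembly

end Fermat.Agent.Ribet.H67

end
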