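/-
RIBET / W-EIS leaf UNIT-EIS (helper67): `H884.UnitEisStatement`.

`kronNorm ℓ u_p = c · u_p^(ℓ+1)` for the modular unit `u_p = Δ(t^p)/Δ(t)` and primes `ℓ ≠ p`.
Proof: `UnitEisCore` (power-series Euler-product identity, by truncation) and
`UnitEisLaurent` (transfer to Laurent series through the twist-product form of `kronNorm`).
-/
import Fermat.Agent.Ribet.H67.UnitEisLaurent
import Fermat.Agent.Ribet.H884.EisSpec

set_option autoImplicit false

noncomputable section

namespace Fermat.Agent.Ribet.H67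

open Fermat.Agent.S37.H400 Fermat.Agent.A2.H708 Fermat.Agent.S24

theorem cst_eq_C {L : Type*} [Field L] (c : L) :
    (cst c : LaurentSeries L) = HahnSeries.C c := by
  have h1 : algebraMap L (PowerSeries L) c = PowerSeries.C c := by simp
  rw [cst, HahnSeries.algebraMap_apply', h1, HahnSeries.ofPowerSeries_C]

/-- **UNIT-EIS**: the modular unit `u_p` is an eigenfunction of the formal Hecke norm. -/
theorem unitEis : Fermat.Agent.Ribet.H884.UnitEisStatement := by
  intro p _ ℓ _ hp hℓp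
  have : NeZero (((ℓ : ℕ) : ℕ) : ℚ) := ⟨by exact_mod_cast ℓ.2.ne_zero⟩
  obtain ⟨ζ, hζ⟩ := HasEnoughRootsOfUnity.exists_primitiveRoot Kbar (ℓ : ℕ)
  have hdvd : ¬ (ℓ : ℕ) ∣ p := fun h =>
    hℓp ((Nat.prime_dvd_prime_iff_eq ℓ.2 hp).1 h)
  obtain ⟨c, hc, h⟩ := kronNorm_unitL_eq (L := Kbar) p (ℓ : ℕ) ℓ.2 hdvd hζ
  exact ⟨c, hc, by rw [h, cst_eq_C]⟩

end Fermat.Agent.Ribet.H67

end
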